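/-
RESEARCH MODE (S40 long shot, leaf (A3) of the S40-STUDY memo), pure algebra, Mathlib only (helper65).

**Boston-Lenstra-Ribet** ("Quotients of group rings arising from two-dimensional
representations", C. R. Acad. Sci. Paris 312 (1991)).  `k` a field of characteristic `≠ 2`,
`G` a group, `ρ : G →* M₂(k)` whose image spans `M₂(k)` (e.g. `ρ` absolutely irreducible, by
Burnside), `σ : G →* End_k(W)` a representation on an arbitrary `k`-module `W` such that every
`g ∈ G` satisfies on `W` the characteristic polynomial of `ρ g`: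
`σ(g)² - tr ρ(g) σ(g) + det ρ(g) = 0`.  Then the action of `k[G]` on `W` factors through `ρ`
(`blr_core`): `ρ(a) = 0 → σ(a) = 0`.  Consequently there is an algebra map `Φ : M₂(k) → End_k(W)`
with `Φ (ρ g) = σ g` (`exists_algHom`), and if `W ≠ 0` then `W` contains a copy of the
representation `ρ` (`exists_embedding`): an injective `k`-linear map `ι : k² → W` with
`ι (ρ g • v) = σ g (ι v)`.

Proof.  `a ↦ a* := ∑ a_g det ρ(g) g⁻¹` is an anti-automorphism of `k[G]`; on
`E = End_k(W) × M₂(k)` the quadratic relations give `π(a*) = tr ρ(a) - π(a)`.  For `a ∈ ker ρ` this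
yields `π(a) π(b) = π(b*) π(a)`, hence `π(a) π([b, c]) = 0`; `1 ∈ M₂(k)` is a sum of products of
commutators, so `π(a) = π(a) π(y)` for some `y ∈ ker ρ`, `π(y) = π(y)²`, and `2 π(y)² = 0`.
-/
import Mathlib

set_option autoImplicit false

noncomputable section

namespace Fermat.Agent.S40x.Alg.BLR

open Matrix

variable {k : Type*} [Field k] {G : Type*} [Group G] {W : Type*} [AddCommGroup W] [Module k W]

/-- `2 × 2` matrices -/
abbrev Mat2 (k : Type*) [Field k] := Matrix (Fin 2) (Fin 2) k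

/-- Cayley-Hamilton for `2 × 2` matrices. -/
theorem cayley_hamilton_two (M : Mat2 k) : M * M - M.trace • M + M.det • (1 : Mat2 k) = 0 := by
  ext i j
  fin_cases i <;> fin_cases j <;>
    simp [Matrix.mul_apply, Fin.sum_univ_two, Matrix.trace_fin_two, Matrix.det_fin_two] <;> ring

section Setup

variable (ρ : G →* Mat2 k) (σ : G →* Module.End k W)

/-- the algebra map `k[G] → M₂(k)` attached to `ρ` -/
def rhoAlg : MonoidAlgebra k G →ₐ[k] Mat2 k := MonoidAlgebra.lift k (Mat2 k) G ρ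

/-- the algebra map `k[G] → End_k(W)` attached to `σ` -/
def sigmaAlg : MonoidAlgebra k G →ₐ[k] Module.End k W := MonoidAlgebra.lift k (Module.End k W) G σ

/-- the determinant character -/
def detChar : G →* k := Matrix.detMonoidHom.comp ρ

/-- the trace function on `k[G]` -/
def trFun : MonoidAlgebra k G →ₗ[k] k := (Matrix.traceLinearMap (Fin 2) k k).comp (rhoAlg ρ).toLinearMap

/-- the monoid hom `g ↦ op (det ρ(g) • g⁻¹)` into the opposite of the group algebra -/
def starHom : G →* (MonoidAlgebra k G)ᵐᵒᵖ where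
  toFun g := MulOpposite.op (MonoidAlgebra.single g⁻¹ (detChar ρ g))
  map_one' := by
    rw [inv_one, map_one]
    rfl
  map_mul' g h := by
    rw [← MulOpposite.op_mul, MonoidAlgebra.single_mul_single, _root_.mul_inv_rev, map_mul, mul_comm]

/-- the anti-automorphism `a ↦ a*`, as an algebra map into the opposite algebra -/
def starAlg : MonoidAlgebra k G →ₐ[k] (MonoidAlgebra k G)ᵐᵒᵖ :=
  MonoidAlgebra.lift k (MonoidAlgebra k G)ᵐᵒᵖ G (starHom ρ)

/-- `a ↦ a* = ∑ a_g det ρ(g) g⁻¹` -/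
def star' (a : MonoidAlgebra k G) : MonoidAlgebra k G := MulOpposite.unop (starAlg ρ a)

theorem star'_mul (a b : MonoidAlgebra k G) : star' ρ (a * b) = star' ρ b * star' ρ a := by
  unfold star'
  rw [map_mul, MulOpposite.unop_mul]

theorem star'_add (a b : MonoidAlgebra k G) : star' ρ (a + b) = star' ρ a + star' ρ b := by
  unfold star'
  rw [map_add, MulOpposite.unop_add]

theorem star'_smul (c : k) (a : MonoidAlgebra k G) : star' ρ (c • a) = c • star' ρ a := by
  unfold star'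
  rw [map_smul, MulOpposite.unop_smul]

theorem star'_of (g : G) :
    star' ρ (MonoidAlgebra.of k G g) = MonoidAlgebra.single g⁻¹ (detChar ρ g) := by
  unfold star' starAlg
  rw [MonoidAlgebra.lift_of]
  rfl

end Setup

/-- in a `k`-algebra: `x x' = 1` and `x² - t x + d = 0` imply `d x' = t - x` -/
theorem smul_inv_eq_of_quadratic {A : Type*} [Ring A] [Algebra k A] {x x' : A} {t d : k}
    (hx : x * x' = 1) (hq : x * x - t • x + d • (1 : A) = 0) : d • x' = t • (1 : A) - x := by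
  have h1 : (x * x - t • x + d • (1 : A)) * x' = 0 := by rw [hq, zero_mul]
  rw [add_mul, sub_mul, mul_assoc, hx, mul_one, smul_mul_assoc, hx, smul_mul_assoc, one_mul] at h1
  have h2 : d • x' = t • (1 : A) - x := by
    have := h1
    rw [sub_add_eq_add_sub, sub_eq_zero] at this
    rw [← this]
    abel
  exact h2

section Core

variable (ρ : G →* Mat2 k) (σ : G →* Module.End k W)
  (hquad : ∀ g : G, σ g * σ g - (ρ g).trace • σ g + (ρ g).det • (1 : Module.End k W) = 0)

/-- `π : k[G] → End_k(W) × M₂(k)` -/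
def piAlg : MonoidAlgebra k G →ₐ[k] (Module.End k W × Mat2 k) :=
  (sigmaAlg σ).prod (rhoAlg ρ)

theorem piAlg_apply (a : MonoidAlgebra k G) : piAlg ρ σ a = (sigmaAlg σ a, rhoAlg ρ a) := rfl

theorem trFun_apply (a : MonoidAlgebra k G) : trFun ρ a = (rhoAlg ρ a).trace := rfl

theorem rhoAlg_of (g : G) : rhoAlg ρ (MonoidAlgebra.of k G g) = ρ g := by
  unfold rhoAlg
  rw [MonoidAlgebra.lift_of]

theorem sigmaAlg_of (g : G) : sigmaAlg σ (MonoidAlgebra.of k G g) = σ g := by
  unfold sigmaAlg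
  rw [MonoidAlgebra.lift_of]

theorem rhoAlg_single (g : G) (c : k) : rhoAlg ρ (MonoidAlgebra.single g c) = c • ρ g := by
  unfold rhoAlg
  rw [MonoidAlgebra.lift_single]

theorem sigmaAlg_single (g : G) (c : k) : sigmaAlg σ (MonoidAlgebra.single g c) = c • σ g := by
  unfold sigmaAlg
  rw [MonoidAlgebra.lift_single]

include hquad in
/-- **Key identity**: `π(a*) = tr ρ(a) - π(a)`. -/
theorem piAlg_star' (a : MonoidAlgebra k G) :
    piAlg ρ σ (star' ρ a) = trFun ρ a • (1 : Module.End k W × Mat2 k) - piAlg ρ σ a := by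
  induction a using MonoidAlgebra.induction_on with
  | of g =>
    rw [star'_of, piAlg_apply, piAlg_apply, sigmaAlg_single, rhoAlg_single, sigmaAlg_of,
      rhoAlg_of, trFun_apply, rhoAlg_of]
    have hσ : σ g * σ g⁻¹ = 1 := by rw [← map_mul, mul_inv_cancel, map_one]
    have hρ : ρ g * ρ g⁻¹ = 1 := by rw [← map_mul, mul_inv_cancel, map_one]
    have h1 : (ρ g).det • σ g⁻¹ = (ρ g).trace • (1 : Module.End k W) - σ g :=
      smul_inv_eq_of_quadratic hσ (hquad g)
    have h2 : (ρ g).det • ρ g⁻¹ = (ρ g).trace • (1 : Mat2 k) - ρ g :=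
      smul_inv_eq_of_quadratic hρ (cayley_hamilton_two (ρ g))
    show ((detChar ρ g) • σ g⁻¹, (detChar ρ g) • ρ g⁻¹) = _
    have hd : detChar ρ g = (ρ g).det := rfl
    rw [hd, h1, h2]
    rfl
  | add a b ha hb =>
    rw [star'_add, map_add, ha, hb, map_add, map_add, add_smul]
    abel
  | smul c a ha =>
    rw [star'_smul, map_smul, ha, map_smul, map_smul, smul_sub, smul_eq_mul, mul_smul]

include hquad in
/-- for `a ∈ ker ρ`: `π(a) π(b) = π(b*) π(a)` -/
theorem piAlg_mul_of_ker {a : MonoidAlgebra k G} (ha : rhoAlg ρ a = 0) (b : MonoidAlgebra k G) :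
    piAlg ρ σ a * piAlg ρ σ b = piAlg ρ σ (star' ρ b) * piAlg ρ σ a := by
  have hta : trFun ρ a = 0 := by rw [trFun_apply, ha, Matrix.trace_zero]
  have htab : trFun ρ (a * b) = 0 := by rw [trFun_apply, map_mul, ha, zero_mul, Matrix.trace_zero]
  have h1 : piAlg ρ σ (star' ρ (a * b)) = - (piAlg ρ σ a * piAlg ρ σ b) := by
    rw [piAlg_star' ρ σ hquad, htab, zero_smul, zero_sub, map_mul]
  have h2 : piAlg ρ σ (star' ρ (a * b)) = - (piAlg ρ σ (star' ρ b) * piAlg ρ σ a) := by
    rw [star'_mul, map_mul, piAlg_star' ρ σ hquad a, hta, zero_smul, zero_sub, mul_neg]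
  exact neg_injective (h1.symm.trans h2)

include hquad in
/-- for `a ∈ ker ρ`: `π(a) π(b c - c b) = 0` -/
theorem piAlg_mul_commutator_of_ker {a : MonoidAlgebra k G} (ha : rhoAlg ρ a = 0)
    (b c : MonoidAlgebra k G) : piAlg ρ σ a * piAlg ρ σ (b * c - c * b) = 0 := by
  have key : ∀ b c : MonoidAlgebra k G,
      piAlg ρ σ a * piAlg ρ σ (b * c) = piAlg ρ σ a * (piAlg ρ σ c * piAlg ρ σ b) := by
    intro b c
    rw [piAlg_mul_of_ker ρ σ hquad ha (b * c), star'_mul, map_mul, mul_assoc,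
      ← piAlg_mul_of_ker ρ σ hquad ha b, ← mul_assoc, ← piAlg_mul_of_ker ρ σ hquad ha c, mul_assoc]
  rw [map_sub, mul_sub, key b c, map_mul, sub_self]

include hquad in
/-- for `y ∈ ker ρ`: `2 π(y)² = 0` -/
theorem two_smul_piAlg_sq_of_ker {y : MonoidAlgebra k G} (hy : rhoAlg ρ y = 0) :
    (2 : k) • (piAlg ρ σ y * piAlg ρ σ y) = 0 := by
  have hty : trFun ρ y = 0 := by rw [trFun_apply, hy, Matrix.trace_zero]
  have htyy : trFun ρ (y * y) = 0 := by rw [trFun_apply, map_mul, hy, zero_mul, Matrix.trace_zero]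
  have h1 : piAlg ρ σ (star' ρ (y * y)) = - (piAlg ρ σ y * piAlg ρ σ y) := by
    rw [piAlg_star' ρ σ hquad, htyy, zero_smul, zero_sub, map_mul]
  have h2 : piAlg ρ σ (star' ρ (y * y)) = piAlg ρ σ y * piAlg ρ σ y := by
    rw [star'_mul, map_mul, piAlg_star' ρ σ hquad y, hty, zero_smul, zero_sub, neg_mul_neg]
  have h3 : piAlg ρ σ y * piAlg ρ σ y = - (piAlg ρ σ y * piAlg ρ σ y) := h2.symm.trans h1
  rw [two_smul]
  nth_rewrite 2 [h3]
  exact add_neg_cancel _

end Core

section Main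

variable (ρ : G →* Mat2 k) (σ : G →* Module.End k W)
  (hquad : ∀ g : G, σ g * σ g - (ρ g).trace • σ g + (ρ g).det • (1 : Module.End k W) = 0)
  (hsurj : Function.Surjective (rhoAlg ρ)) (hchar : (2 : k) ≠ 0)

/-- the identity of `M₂(k)` is a sum of two products of commutators of matrix units -/
theorem one_eq_commutators :
    ((!![1, 0; 0, 0] : Mat2 k) * !![0, 1; 0, 0] - !![0, 1; 0, 0] * !![1, 0; 0, 0]) *
        ((!![0, 0; 0, 1] : Mat2 k) * !![0, 0; 1, 0] - !![0, 0; 1, 0] * !![0, 0; 0, 1]) +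
      ((!![0, 0; 0, 1] : Mat2 k) * !![0, 0; 1, 0] - !![0, 0; 1, 0] * !![0, 0; 0, 1]) *
        ((!![1, 0; 0, 0] : Mat2 k) * !![0, 1; 0, 0] - !![0, 1; 0, 0] * !![1, 0; 0, 0]) = 1 := by
  ext i j
  fin_cases i <;> fin_cases j <;> simp

include hquad hsurj hchar in
/-- **Boston-Lenstra-Ribet.**  If every `g` satisfies on `W` the characteristic polynomial of
`ρ g`, and `ρ(k[G]) = M₂(k)`, `char k ≠ 2`, then the kernel of `ρ` on `k[G]` acts as zero on `W`
(and on `W × k²`). -/
theorem piAlg_eq_zero_of_ker {a : MonoidAlgebra k G} (ha : rhoAlg ρ a = 0) :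
    piAlg ρ σ a = 0 := by
  obtain ⟨e11, h11⟩ := hsurj !![1, 0; 0, 0]
  obtain ⟨e12, h12⟩ := hsurj !![0, 1; 0, 0]
  obtain ⟨e21, h21⟩ := hsurj !![0, 0; 1, 0]
  obtain ⟨e22, h22⟩ := hsurj !![0, 0; 0, 1]
  set c1 := e11 * e12 - e12 * e11 with hc1
  set c2 := e22 * e21 - e21 * e22 with hc2
  set c := c1 * c2 + c2 * c1 with hc
  have hρc : rhoAlg ρ c = 1 := by
    rw [hc, hc1, hc2]
    simp only [map_add, map_mul, map_sub, h11, h12, h21, h22]
    exact one_eq_commutators
  -- `π(a') π(c) = 0` for `a' ∈ ker ρ`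
  have hkill : ∀ a' : MonoidAlgebra k G, rhoAlg ρ a' = 0 → piAlg ρ σ a' * piAlg ρ σ c = 0 := by
    intro a' ha'
    have k1 : piAlg ρ σ a' * piAlg ρ σ c1 = 0 :=
      piAlg_mul_commutator_of_ker ρ σ hquad ha' e11 e12
    have k2 : piAlg ρ σ a' * piAlg ρ σ c2 = 0 :=
      piAlg_mul_commutator_of_ker ρ σ hquad ha' e22 e21
    rw [hc, map_add, map_mul, map_mul, mul_add, ← mul_assoc, ← mul_assoc, k1, k2, zero_mul,
      zero_mul, add_zero]
  set y := 1 - c with hy
  have hρy : rhoAlg ρ y = 0 := by rw [hy, map_sub, map_one, hρc, sub_self]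
  have hmul : ∀ a' : MonoidAlgebra k G, rhoAlg ρ a' = 0 →
      piAlg ρ σ a' = piAlg ρ σ a' * piAlg ρ σ y := by
    intro a' ha'
    rw [hy, map_sub, map_one, mul_sub, mul_one, hkill a' ha', sub_zero]
  have hyy : piAlg ρ σ y * piAlg ρ σ y = 0 := by
    have := two_smul_piAlg_sq_of_ker ρ σ hquad hρy
    rcases smul_eq_zero.mp this with h | h
    · exact absurd h hchar
    · exact h
  have hy0 : piAlg ρ σ y = 0 := by rw [hmul y hρy, hyy]
  rw [hmul a ha, hy0, mul_zero]

include hquad hsurj hchar in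
/-- **Boston-Lenstra-Ribet**, module form: `ρ(a) = 0 → σ(a) = 0`. -/
theorem blr_core {a : MonoidAlgebra k G} (ha : rhoAlg ρ a = 0) : sigmaAlg σ a = 0 := by
  have := piAlg_eq_zero_of_ker ρ σ hquad hsurj hchar ha
  rw [piAlg_apply, Prod.mk_eq_zero] at this
  exact this.1

end Main

section Consequences

variable (ρ : G →* Mat2 k) (σ : G →* Module.End k W)
  (hquad : ∀ g : G, σ g * σ g - (ρ g).trace • σ g + (ρ g).det • (1 : Module.End k W) = 0)
  (hsurj : Function.Surjective (rhoAlg ρ)) (hchar : (2 : k) ≠ 0)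

include hquad hsurj hchar in
theorem sigmaAlg_eq_of_rhoAlg_eq {a b : MonoidAlgebra k G} (h : rhoAlg ρ a = rhoAlg ρ b) :
    sigmaAlg σ a = sigmaAlg σ b := by
  have h1 : rhoAlg ρ (a - b) = 0 := by rw [map_sub, h, sub_self]
  have h2 := blr_core ρ σ hquad hsurj hchar h1
  rwa [map_sub, sub_eq_zero] at h2

include hquad hsurj hchar in
/-- **The action on `W` factors through `M₂(k)`.** -/
theorem exists_algHom :
    ∃ Φ : Mat2 k →ₐ[k] Module.End k W, (∀ a, Φ (rhoAlg ρ a) = sigmaAlg σ a) ∧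
      ∀ g, Φ (ρ g) = σ g := by
  have key := fun {a b : MonoidAlgebra k G} (h : rhoAlg ρ a = rhoAlg ρ b) =>
    sigmaAlg_eq_of_rhoAlg_eq ρ σ hquad hsurj hchar h
  let s : Mat2 k → MonoidAlgebra k G := Function.surjInv hsurj
  have hs : ∀ m, rhoAlg ρ (s m) = m := Function.surjInv_eq hsurj
  let Φ₀ : Mat2 k →ₗ[k] Module.End k W :=
    { toFun := fun m => sigmaAlg σ (s m)
      map_add' := by
        intro m m'
        rw [← map_add]
        exact key (by rw [map_add, hs, hs, hs])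
      map_smul' := by
        intro c m
        rw [RingHom.id_apply, ← map_smul]
        exact key (by rw [map_smul, hs, hs]) }
  have hΦ₀ : ∀ a, Φ₀ (rhoAlg ρ a) = sigmaAlg σ a := fun a => key (hs _)
  let Φ : Mat2 k →ₐ[k] Module.End k W := AlgHom.ofLinearMap Φ₀
    (by
      have := hΦ₀ 1
      rwa [map_one (rhoAlg ρ), map_one (sigmaAlg σ)] at this)
    (by
      intro m m'
      have h1 := hΦ₀ (s m * s m')
      rw [map_mul (rhoAlg ρ), hs, hs, map_mul (sigmaAlg σ)] at h1
      exact h1)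
  refine ⟨Φ, hΦ₀, fun g => ?_⟩
  have := hΦ₀ (MonoidAlgebra.of k G g)
  rwa [rhoAlg_of, sigmaAlg_of] at this

/-- the matrix with first column `v` and second column `0` -/
def colMat : (Fin 2 → k) →ₗ[k] Mat2 k where
  toFun v := !![v 0, 0; v 1, 0]
  map_add' v v' := by
    ext i j
    fin_cases i <;> fin_cases j <;> simp
  map_smul' c v := by
    ext i j
    fin_cases i <;> fin_cases j <;> simp

theorem mul_colMat (M : Mat2 k) (v : Fin 2 → k) : M * colMat v = colMat (M.mulVec v) := by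
  ext i j
  fin_cases i <;> fin_cases j <;>
    simp [colMat, Matrix.mul_apply, Fin.sum_univ_two]

theorem e11_mul_colMat (v : Fin 2 → k) :
    (!![1, 0; 0, 0] : Mat2 k) * colMat v = v 0 • !![1, 0; 0, 0] := by
  ext i j
  fin_cases i <;> fin_cases j <;> simp [colMat, Matrix.mul_apply, Fin.sum_univ_two]

theorem e12_mul_colMat (v : Fin 2 → k) :
    (!![0, 1; 0, 0] : Mat2 k) * colMat v = v 1 • !![1, 0; 0, 0] := by
  ext i j
  fin_cases i <;> fin_cases j <;> simp [colMat, Matrix.mul_apply, Fin.sum_univ_two]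

include hquad hsurj hchar in
/-- **A copy of `ρ` inside `W`.**  If `W ≠ 0`, there is an injective `k`-linear map `ι : k² → W`
with `ι (ρ g • v) = σ g (ι v)`. -/
theorem exists_embedding [Nontrivial W] :
    ∃ ι : (Fin 2 → k) →ₗ[k] W, Function.Injective ι ∧
      ∀ g v, ι ((ρ g).mulVec v) = σ g (ι v) := by
  obtain ⟨Φ, -, hΦ⟩ := exists_algHom ρ σ hquad hsurj hchar
  -- `Φ(E₁₁) ≠ 0`
  have hE : Φ !![1, 0; 0, 0] ≠ 0 := by
    intro h0
    have h22 : (!![0, 0; 0, 1] : Mat2 k) = !![0, 0; 1, 0] * !![1, 0; 0, 0] * !![0, 1; 0, 0] := by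
      ext i j
      fin_cases i <;> fin_cases j <;> simp [Matrix.mul_apply, Fin.sum_univ_two]
    have h1 : (1 : Mat2 k) = !![1, 0; 0, 0] + !![0, 0; 0, 1] := by
      ext i j
      fin_cases i <;> fin_cases j <;> simp
    have h2 : Φ 1 = 0 := by
      rw [h1, map_add, h22, map_mul, map_mul, h0, mul_zero, zero_mul, add_zero]
    rw [map_one] at h2
    obtain ⟨w, hw⟩ := exists_ne (0 : W)
    have := congrArg (fun f : Module.End k W => f w) h2
    exact hw this
  obtain ⟨w₀, hw₀⟩ : ∃ w₀ : W, Φ !![1, 0; 0, 0] w₀ ≠ 0 := by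
    by_contra hcon
    exact hE (LinearMap.ext fun x => by_contra fun hx => hcon ⟨x, hx⟩)
  set w := Φ !![1, 0; 0, 0] w₀ with hw
  have hidem : Φ !![1, 0; 0, 0] w = w := by
    have h11 : (!![1, 0; 0, 0] : Mat2 k) * !![1, 0; 0, 0] = !![1, 0; 0, 0] := by
      ext i j
      fin_cases i <;> fin_cases j <;> simp [Matrix.mul_apply, Fin.sum_univ_two]
    rw [hw, ← Module.End.mul_apply, ← map_mul, h11]
  let ι : (Fin 2 → k) →ₗ[k] W :=
    { toFun := fun v => Φ (colMat v) w
      map_add' := by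
        intro v v'
        rw [map_add, map_add, LinearMap.add_apply]
      map_smul' := by
        intro c v
        rw [map_smul, map_smul, LinearMap.smul_apply, RingHom.id_apply] }
  have hι : ∀ v, ι v = Φ (colMat v) w := fun v => rfl
  refine ⟨ι, ?_, ?_⟩
  · rw [← LinearMap.ker_eq_bot, LinearMap.ker_eq_bot']
    intro v hv
    rw [hι] at hv
    have h0 : v 0 • w = 0 := by
      have := congrArg (Φ !![1, 0; 0, 0]) hv
      rw [map_zero, ← Module.End.mul_apply, ← map_mul, e11_mul_colMat, map_smul,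
        LinearMap.smul_apply, hidem] at this
      exact this
    have h1 : v 1 • w = 0 := by
      have := congrArg (Φ !![0, 1; 0, 0]) hv
      rw [map_zero, ← Module.End.mul_apply, ← map_mul, e12_mul_colMat, map_smul,
        LinearMap.smul_apply, hidem] at this
      exact this
    have hv0 : v 0 = 0 := (smul_eq_zero.mp h0).resolve_right hw₀
    have hv1 : v 1 = 0 := (smul_eq_zero.mp h1).resolve_right hw₀
    ext i
    fin_cases i
    · exact hv0
    · exact hv1
  · intro g v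
    rw [hι, hι, ← mul_colMat, map_mul, Module.End.mul_apply, hΦ]

end Consequences

section Surjectivity

variable (ρ : G →* Mat2 k)

/-- `ρ(k[G]) = M₂(k)` as soon as the matrices `ρ g` span `M₂(k)` -/
theorem rhoAlg_surjective_of_span (h : Submodule.span k (Set.range ρ) = ⊤) :
    Function.Surjective (rhoAlg ρ) := by
  have h1 : Submodule.span k (Set.range ρ) ≤ LinearMap.range (rhoAlg ρ).toLinearMap := by
    rw [Submodule.span_le]
    rintro _ ⟨g, rfl⟩
    exact ⟨MonoidAlgebra.of k G g, rhoAlg_of ρ g⟩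
  rw [h, top_le_iff] at h1
  intro m
  have : m ∈ LinearMap.range (rhoAlg ρ).toLinearMap := by rw [h1]; exact Submodule.mem_top
  obtain ⟨a, ha⟩ := this
  exact ⟨a, ha⟩

end Surjectivity

section Burnside

theorem e11_mul_mul_e22 (M : Mat2 k) :
    (!![1, 0; 0, 0] : Mat2 k) * M * !![0, 0; 0, 1] = M 0 1 • !![0, 1; 0, 0] := by
  ext i j
  simp only [Matrix.mul_apply, Fin.sum_univ_two, Matrix.smul_apply, smul_eq_mul]
  fin_cases i <;> fin_cases j <;> simp

theorem e22_mul_mul_e11 (M : Mat2 k) :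
    (!![0, 0; 0, 1] : Mat2 k) * M * !![1, 0; 0, 0] = M 1 0 • !![0, 0; 1, 0] := by
  ext i j
  simp only [Matrix.mul_apply, Fin.sum_univ_two, Matrix.smul_apply, smul_eq_mul]
  fin_cases i <;> fin_cases j <;> simp

variable (ρ : G →* Mat2 k)

/-- **Burnside for `2 × 2` matrices, coordinate form.**  If some `ρ c` is diagonal with distinct
diagonal entries and neither coordinate line is stable under `ρ(G)`, then `ρ(k[G]) = M₂(k)`.
(For the mod `p` representation of an elliptic curve over `ℚ`, `p` odd, take for `c` a complex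
conjugation and a basis of eigenvectors of `c`: irreducibility over `𝔽_p` suffices.) -/
theorem rhoAlg_surjective_of_diag (c : G) (α β : k) (hαβ : α ≠ β) (hc : ρ c = !![α, 0; 0, β])
    (h12 : ∃ g, (ρ g) 0 1 ≠ 0) (h21 : ∃ g, (ρ g) 1 0 ≠ 0) : Function.Surjective (rhoAlg ρ) := by
  have hd : α - β ≠ 0 := sub_ne_zero.mpr hαβ
  have hd' : β - α ≠ 0 := sub_ne_zero.mpr (Ne.symm hαβ)
  -- preimages of the matrix units
  obtain ⟨e11, h11⟩ : ∃ e, rhoAlg ρ e = !![1, 0; 0, 0] := by
    refine ⟨(α - β)⁻¹ • (MonoidAlgebra.of k G c - β • 1), ?_⟩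
    rw [map_smul, map_sub, rhoAlg_of, map_smul, map_one, hc]
    ext i j
    fin_cases i <;> fin_cases j <;> simp [hd]
  obtain ⟨e22, h22⟩ : ∃ e, rhoAlg ρ e = !![0, 0; 0, 1] := by
    refine ⟨(β - α)⁻¹ • (MonoidAlgebra.of k G c - α • 1), ?_⟩
    rw [map_smul, map_sub, rhoAlg_of, map_smul, map_one, hc]
    ext i j
    fin_cases i <;> fin_cases j <;> simp [hd']
  obtain ⟨g, hg⟩ := h12
  obtain ⟨g', hg'⟩ := h21
  obtain ⟨e12, h12'⟩ : ∃ e, rhoAlg ρ e = !![0, 1; 0, 0] := by
    refine ⟨((ρ g) 0 1)⁻¹ • (e11 * MonoidAlgebra.of k G g * e22), ?_⟩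
    rw [map_smul, map_mul, map_mul, h11, h22, rhoAlg_of, e11_mul_mul_e22, smul_smul,
      inv_mul_cancel₀ hg, one_smul]
  obtain ⟨e21, h21'⟩ : ∃ e, rhoAlg ρ e = !![0, 0; 1, 0] := by
    refine ⟨((ρ g') 1 0)⁻¹ • (e22 * MonoidAlgebra.of k G g' * e11), ?_⟩
    rw [map_smul, map_mul, map_mul, h11, h22, rhoAlg_of, e22_mul_mul_e11, smul_smul,
      inv_mul_cancel₀ hg', one_smul]
  intro M
  refine ⟨M 0 0 • e11 + M 0 1 • e12 + M 1 0 • e21 + M 1 1 • e22, ?_⟩
  simp only [map_add, map_smul, h11, h22, h12', h21']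
  ext i j
  fin_cases i <;> fin_cases j <;> simp

end Burnside

end Fermat.Agent.S40x.Alg.BLR
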